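import Fermat.Agent.S59.TW.H494.TGal
import Fermat.Agent.S59.TW.H314.CmpSpec
import Fermat.Agent.S59.Arch.WilesLevel

/-!
# Row S59, cell TW, layer 4: the leaf **GAL-T** of `TW/H314/CmpSpec.lean`  (helper494)

`galT494 : G4Statement → S34Shape494 → S30Statement → (∀ M, HasIntegralStructure M 2) →
  H314.GalTStatement`.

At a newform point `emb : T_Q → O'` of level `M` with `q_j² ∤ M` the inertia value is `1`.

* `q_j ∥ M`: `inertiaValue_eq_one_of_char494` (datum of level `M` by G4, unipotent on inertia at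
  `q_j` by the frozen S34, Chebotarev transfer to `ρ_Q ⊗ O'`).  No contradiction with the
  Taylor–Wiles condition is needed.
* `q_j ∤ M`: the representation `ρ''` of the frozen S30 at level `M` is unramified at `q_j` and
  has the Frobenius characteristic polynomials of `ρ_Q ⊗ O''`; by Chebotarev
  (`S58.H93.chebCharpoly`) `ρ_Q ⊗ O''` is unipotent on inertia at `q_j`.

All four hypotheses are theorems on main (`S59.H294.g4_294`, `S34.result`, `S30.result`,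
`S23.result`).
-/

set_option autoImplicit false

open Polynomial IsLocalRing CuspForm

namespace Fermat.Agent.S59.TW.H494

open Fermat.Agent.S59.Arch Fermat.Agent.S59.TW.H959 Fermat.Agent.S59.TW.Aut
  Fermat.Agent.S59.TW.H314

/-- An unramified representation is unipotent on inertia. -/
theorem isUnipotent_of_isUnramified494 {A : Type} [CommRing A] [IsLocalRing A]
    {ρ : GaloisRepAdic A} {q : ℕ} (hu : ρ.IsUnramifiedAt q) : ρ.IsUnipotentOnInertiaAt q := by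
  intro P hP σ hσ
  rw [hu P hP σ hσ, LinearMap.charpoly_one, ρ.finrank_eq]

/-- Transfer of unipotency along equal characteristic polynomials. -/
theorem isUnipotent_of_charpoly_eq494 {A : Type} [CommRing A] [IsLocalRing A]
    {ρ₁ ρ₂ : GaloisRepAdic A} {q : ℕ}
    (h : ∀ σ : AlgebraicClosure ℚ ≃ₐ[ℚ] AlgebraicClosure ℚ,
      LinearMap.charpoly (ρ₁.ρ σ) = LinearMap.charpoly (ρ₂.ρ σ))
    (hu : ρ₂.IsUnipotentOnInertiaAt q) : ρ₁.IsUnipotentOnInertiaAt q := by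
  intro P hP σ hσ
  rw [h σ]
  exact hu P hP σ hσ

/-- **GAL-T, the unramified case, for a general datum.**  `H` a Hecke–Galois datum, `x : T → 𝒪'`
a local homomorphism whose eigensystem is a character `χ'` of the Hecke algebra of a level `N'`
prime to `q`, `q ≠ p`.  Then `x w = 1` for every inertia value `w` at `q`. -/
theorem inertiaValue_eq_one_of_char_unram494 (h30 : Fermat.Agent.S31.S30Statement)
    {N₀ : ℕ} [NeZero N₀] {S₀ : Finset ℕ}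
    {𝒪 : Type} [CommRing 𝒪] [IsDomain 𝒪] [IsDiscreteValuationRing 𝒪]
    [IsAdicComplete (maximalIdeal 𝒪) 𝒪]
    {θ : CuspForm.heckeAlgebra N₀ 2 (↑S₀ : Set ℕ) →+* ResidueField 𝒪}
    {T : Type} [CommRing T] [IsLocalRing T] [IsNoetherianRing T]
    [IsAdicComplete (maximalIdeal T) T] [Algebra 𝒪 T] [IsLocalHom (algebraMap 𝒪 T)]
    [Module.Finite 𝒪 T] [Module.Free 𝒪 T]
    {𝒪' : Type} [CommRing 𝒪'] [IsDomain 𝒪'] [IsDiscreteValuationRing 𝒪']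
    [IsAdicComplete (maximalIdeal 𝒪') 𝒪'] [Finite (ResidueField 𝒪')] [CharZero 𝒪']
    (p : ℕ) [Fact p.Prime] (hp𝒪' : (p : 𝒪') ∈ maximalIdeal 𝒪')
    (H : CuspForm.HeckeGaloisRepDatum N₀ (↑S₀ : Set ℕ) 𝒪 θ T)
    (x : T →+* 𝒪') (hx : IsLocalHom x)
    {N' : ℕ} [NeZero N'] {S' : Finset ℕ}
    (hpS' : p ∈ S') (hN'S' : ∀ q : ℕ, q.Prime → q ∣ N' → q ∈ S')
    (hS₀ : S₀ ⊆ S') (hN₀ : ∀ q : ℕ, q.Prime → q ∣ N₀ → q ∈ S')
    (χ' : CuspForm.heckeAlgebra N' 2 (↑S' : Set ℕ) →+* 𝒪')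
    (hcompat : ∀ (ℓ : ℕ) (hℓ : ℓ.Prime) (hℓN₀ : ¬ ℓ ∣ N₀) (hℓS₀ : ℓ ∉ (↑S₀ : Set ℕ))
      (hℓN' : ¬ ℓ ∣ N') (hℓS' : ℓ ∉ (↑S' : Set ℕ)),
      x (H.π (heckeAlgebra.T hℓ hℓN₀ hℓS₀)) = χ' (heckeAlgebra.T hℓ hℓN' hℓS'))
    (q : ℕ) (hq : q.Prime) (hqp : q ≠ p) (hqN : ¬ q ∣ N')
    (P : ValuationSubring (AlgebraicClosure ℚ)) (hP : P.LiesOverPrime q)
    (φ σ : AlgebraicClosure ℚ ≃ₐ[ℚ] AlgebraicClosure ℚ) (hφ : P.IsFrobeniusAt φ q)
    (hσ : σ ∈ P.inertiaSubgroupIn ℚ) (a₀ w : T) (hw : IsInertiaValue H.ρ φ σ a₀ w) :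
    x w = 1 := by
  classical
  obtain ⟨𝒪'', _, _, _, _, _, _, _, _, hloc, hinj, ρ'', hcp, hunr⟩ :=
    h30 p N' S' hpS' hN'S' 𝒪' hp𝒪' χ'
  have hu'' : ρ''.IsUnipotentOnInertiaAt q := isUnipotent_of_isUnramified494 (hunr q hq hqN hqp)
  -- the base change of `H.ρ` to `𝒪''`
  have hcheb : ∀ τ : AlgebraicClosure ℚ ≃ₐ[ℚ] AlgebraicClosure ℚ,
      LinearMap.charpoly
          (((H.ρ.baseChangeAlong x hx).baseChangeAlong (algebraMap 𝒪' 𝒪'') hloc).ρ τ) =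
        LinearMap.charpoly (ρ''.ρ τ) := by
    refine Fermat.Agent.S58.H93.chebCharpoly 𝒪'' _ _ S' ?_
    intro ℓ hℓ hℓS' A hA τ hτ
    have hℓS'c : ℓ ∉ (↑S' : Set ℕ) := fun h => hℓS' (Finset.mem_coe.mp h)
    have hℓS₀ : ℓ ∉ (↑S₀ : Set ℕ) := fun h => hℓS' (hS₀ (Finset.mem_coe.mp h))
    have hℓN₀ : ¬ ℓ ∣ N₀ := fun h => hℓS' (hN₀ ℓ hℓ h)
    have hℓN' : ¬ ℓ ∣ N' := fun h => hℓS' (hN'S' ℓ hℓ h)
    rw [Fermat.Agent.S59.Arch.charpoly_baseChangeAlong,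
      Fermat.Agent.S59.Arch.charpoly_baseChangeAlong,
      H.charpoly_frob ℓ hℓ hℓN₀ hℓS₀ A hA τ hτ, hcp ℓ hℓ hℓN' hℓS'c A hA τ hτ]
    simp only [Polynomial.map_add, Polynomial.map_sub, Polynomial.map_mul, Polynomial.map_pow,
      Polynomial.map_X, Polynomial.map_C, map_natCast, Polynomial.map_natCast]
    rw [hcompat ℓ hℓ hℓN₀ hℓS₀ hℓN' hℓS'c]
  have hu : ((H.ρ.baseChangeAlong x hx).baseChangeAlong (algebraMap 𝒪' 𝒪'')
      hloc).IsUnipotentOnInertiaAt q := isUnipotent_of_charpoly_eq494 hcheb hu''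
  have h1 : algebraMap 𝒪' 𝒪'' (x w) = 1 :=
    isInertiaValue_eq_one_of_isUnipotent_frob494 hu hP hφ hσ
      (isInertiaValue_map494 (algebraMap 𝒪' 𝒪'') hloc (isInertiaValue_map494 x hx hw))
  apply hinj
  rw [h1, map_one]

/-- **GAL-T, general form** (ANY Hecke–Galois datum `H` of ANY level `N₀` away from ANY `S₀`,
any local point `x : T → 𝒪'`, any prime `q ≠ p`): if the eigensystem of `x` is a character `χ'`
of the Hecke algebra of a level `N'` with `q² ∤ N'`, then `x w = 1` for every inertia value `w`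
of `H.ρ` at `q`.  (Serves the cell TW, `Sig = Smin ∪ Q`, and its Ihara-avoidance twin,
`Sig = Smin ∪ Piv ∪ Q`.) -/
theorem inertiaValue_eq_one_of_sq_not_dvd494 (hG4 : Fermat.Agent.S59.G4.G4Statement)
    (h34 : S34Shape494) (h30 : Fermat.Agent.S31.S30Statement)
    (hIS : ∀ (M : ℕ) [NeZero M], CuspForm.HasIntegralStructure M 2)
    {N₀ : ℕ} [NeZero N₀] {S₀ : Finset ℕ}
    {𝒪 : Type} [CommRing 𝒪] [IsDomain 𝒪] [IsDiscreteValuationRing 𝒪]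
    [IsAdicComplete (maximalIdeal 𝒪) 𝒪]
    {θ : CuspForm.heckeAlgebra N₀ 2 (↑S₀ : Set ℕ) →+* ResidueField 𝒪}
    {T : Type} [CommRing T] [IsLocalRing T] [IsNoetherianRing T]
    [IsAdicComplete (maximalIdeal T) T] [Algebra 𝒪 T] [IsLocalHom (algebraMap 𝒪 T)]
    [Module.Finite 𝒪 T] [Module.Free 𝒪 T]
    {𝒪' : Type} [CommRing 𝒪'] [IsDomain 𝒪'] [IsDiscreteValuationRing 𝒪']
    [IsAdicComplete (maximalIdeal 𝒪') 𝒪'] [Finite (ResidueField 𝒪')] [CharZero 𝒪']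
    (p : ℕ) [Fact p.Prime] (hp2 : p ≠ 2) (hp𝒪' : (p : 𝒪') ∈ maximalIdeal 𝒪')
    (H : CuspForm.HeckeGaloisRepDatum N₀ (↑S₀ : Set ℕ) 𝒪 θ T)
    (x : T →+* 𝒪') (hx : IsLocalHom x)
    {N' : ℕ} [NeZero N'] {S' : Finset ℕ}
    (hpS' : p ∈ S') (hN'S' : ∀ q : ℕ, q.Prime → q ∣ N' → q ∈ S')
    (hS₀ : S₀ ⊆ S') (hN₀ : ∀ q : ℕ, q.Prime → q ∣ N₀ → q ∈ S')
    (χ' : CuspForm.heckeAlgebra N' 2 (↑S' : Set ℕ) →+* 𝒪')
    (hcompat : ∀ (ℓ : ℕ) (hℓ : ℓ.Prime) (hℓN₀ : ¬ ℓ ∣ N₀) (hℓS₀ : ℓ ∉ (↑S₀ : Set ℕ))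
      (hℓN' : ¬ ℓ ∣ N') (hℓS' : ℓ ∉ (↑S' : Set ℕ)),
      x (H.π (heckeAlgebra.T hℓ hℓN₀ hℓS₀)) = χ' (heckeAlgebra.T hℓ hℓN' hℓS'))
    (q : ℕ) (hq : q.Prime) (hqp : q ≠ p) (hq2 : ¬ q ^ 2 ∣ N')
    (P : ValuationSubring (AlgebraicClosure ℚ)) (hP : P.LiesOverPrime q)
    (φ σ : AlgebraicClosure ℚ ≃ₐ[ℚ] AlgebraicClosure ℚ) (hφ : P.IsFrobeniusAt φ q)
    (hσ : σ ∈ P.inertiaSubgroupIn ℚ) (a₀ w : T) (hw : IsInertiaValue H.ρ φ σ a₀ w) :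
    x w = 1 := by
  haveI : Fact (CuspForm.HasIntegralStructure N' 2) := ⟨hIS N'⟩
  by_cases hqN : q ∣ N'
  · exact inertiaValue_eq_one_of_char494 hG4 h34 p hp2 hp𝒪' H x hx hpS' hN'S' hS₀ hN₀ χ' hcompat
      q hq hqp hqN hq2 P hP φ σ hφ hσ a₀ w hw
  · exact inertiaValue_eq_one_of_char_unram494 h30 p hp𝒪' H x hx hpS' hN'S' hS₀ hN₀ χ' hcompat
      q hq hqp hqN P hP φ σ hφ hσ a₀ w hw

/-- **GAL-T** (leaf of `TW/H314/CmpSpec.lean`). -/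
theorem galT494 (hG4 : Fermat.Agent.S59.G4.G4Statement) (h34 : S34Shape494)
    (h30 : Fermat.Agent.S31.S30Statement)
    (hIS : ∀ (M : ℕ) [NeZero M], CuspForm.HasIntegralStructure M 2) : GalTStatement := by
  intro p hpF 𝒪 _ _ _ _ _ _ ρbar Smin h t _ n r qv hq _ PQ j P hP φ hφ σ hσ a₀ w hw
    O' _ _ _ _ _ _ emb hemb hnew
  classical
  obtain ⟨M, hM, g, -, hc, hMS, chig, iota, -, hcompat⟩ := hnew
  haveI : NeZero M := hM
  obtain ⟨-, hqv, -⟩ := hq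
  obtain ⟨hqprime, hqS, -⟩ := hqv j
  have hp : p.Prime := hpF.out
  have hqp : qv j ≠ p := fun h' => hqS (h' ▸ h.hpSmin)
  have hpSig : p ∈ Smin ∪ Finset.univ.image qv := Finset.mem_union_left _ h.hpSmin
  have hSig : ∀ q ∈ Smin ∪ Finset.univ.image qv, q.Prime := by
    intro q hqm
    rcases Finset.mem_union.mp hqm with h1 | h1
    · exact h.hSmin q h1
    · obtain ⟨i, -, rfl⟩ := Finset.mem_image.mp h1
      exact (hqv i).1
  have hN₀ : ∀ q : ℕ, q.Prime → q ∣ wilesLevel p t Smin (Smin ∪ Finset.univ.image qv) →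
      q ∈ Smin ∪ Finset.univ.image qv := fun q hq' hqd =>
    mem_of_prime_dvd_wilesLevel hp h.hSmin hSig h.hpSmin Finset.subset_union_left q hq' hqd
  -- `p` is in the maximal ideal of `O'`
  have hpT : (p : PQ.T) ∈ maximalIdeal PQ.T := by
    rw [IsLocalRing.mem_maximalIdeal]
    intro hu
    have h1 : IsUnit (algebraMap 𝒪 PQ.T (p : 𝒪)) := by rwa [map_natCast]
    exact (IsLocalRing.mem_maximalIdeal _).mp h.hp𝒪 (isUnit_of_map_unit (algebraMap 𝒪 PQ.T) _ h1)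
  have hpO' : (p : O') ∈ maximalIdeal O' := by
    rw [IsLocalRing.mem_maximalIdeal]
    intro hu
    have h1 : IsUnit (emb (p : PQ.T)) := by rwa [map_natCast]
    exact (IsLocalRing.mem_maximalIdeal _).mp hpT (hemb.map_nonunit _ h1)
  have hcompat' : ∀ (ℓ : ℕ) (hℓ : ℓ.Prime)
      (hℓN₀ : ¬ ℓ ∣ wilesLevel p t Smin (Smin ∪ Finset.univ.image qv))
      (hℓS₀ : ℓ ∉ (↑(Smin ∪ Finset.univ.image qv) : Set ℕ))
      (hℓN' : ¬ ℓ ∣ M) (hℓS' : ℓ ∉ (↑(Smin ∪ Finset.univ.image qv) : Set ℕ)),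
      emb (PQ.H.π (heckeAlgebra.T hℓ hℓN₀ hℓS₀)) =
        (iota.comp chig.rangeRestrict) (heckeAlgebra.T hℓ hℓN' hℓS') :=
    fun ℓ hℓ hℓN₀ hℓS₀ hℓN' hℓS' => (hcompat ℓ hℓ hℓN₀ hℓN' hℓS').symm
  exact inertiaValue_eq_one_of_sq_not_dvd494 hG4 h34 h30 hIS p h.hp2 hpO' PQ.H emb hemb hpSig hMS
    (Finset.Subset.refl _) hN₀ (iota.comp chig.rangeRestrict) hcompat' (qv j) hqprime hqp hc
    P hP φ σ hφ hσ a₀ w hw

end Fermat.Agent.S59.TW.H494
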