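import Fermat.Agent.S59.TW.H494.UnipInertia
import Fermat.Agent.S59.G4.Spec
import Fermat.Agent.S59.Arch.Glue
import Fermat.Agent.S58.H93.Cheb
import Fermat.Agent.S58.H273.ResGeneric

/-!
# Row S59 / HARD, cell TW, leaf CMP, part (T) — Galois core **T-GAL** (helper494)

Part (T) of TW-ALG (`coord/S59-CMPA-helper314.md`): an inertia value `w ∈ T_Q` at a Taylor–Wiles
prime `q` acts unipotently on `M_Q / (⟨a⟩_q - 1) M_Q`.  Pointwise this says: if the eigensystem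
of a point `x` of `T_Q` occurs at a level `N'` with `q ∥ N'` (forms with trivial nebentypus at
`q`, twisted to trivial character), then `x w = 1`.  This file proves the Galois half.

* `isUnipotent_of_compat494` (**transfer**): two Hecke–Galois data `H₁`, `H₂` (ANY levels) with
  points `x₁`, `x₂` in the same complete DVR `𝒪'` and the same eigenvalues at almost all primes;
  if `H₂.ρ` is unipotent on inertia at `q`, so is `H₁.ρ ⊗_{x₁} 𝒪'`.  (Chebotarev: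
  `S58.H93.chebCharpoly`; unipotency is a condition on characteristic polynomials.)
* `isUnipotent_of_char494` (**T-GAL**): `H` a datum, `x : T → 𝒪'` a local homomorphism whose
  eigensystem is a character `χ'` of the Hecke algebra of a level `N'` with `q ∥ N'`, `q ≠ p`.
  From `G4Statement` (existence of the datum of level `N'`) and the frozen S34 (as hypothesis
  `S34Shape494`): `H.ρ ⊗_x 𝒪'` is unipotent on inertia at `q`.
* `inertiaValue_eq_one_of_char494` : in that situation `x w = 1` for every inertia value `w` of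
  `H.ρ` at `(φ, σ)`, `φ` a Frobenius at a place over `q`, `σ` in its inertia group.
-/

set_option autoImplicit false

open Polynomial IsLocalRing CuspForm

namespace Fermat.Agent.S59.TW.H494

open Fermat.Agent.S59.TW.H959

/-- The frozen statement S34 (unipotent inertia at `q ∥ N`, `q ≠ p`), as a `Prop`
(the same text as `NMP.H935.S34Shape`; feed `Fermat.Agent.S34.result`). -/
def S34Shape494 : Prop :=
  ∀ {𝒪 : Type} [CommRing 𝒪] [IsDomain 𝒪] [IsDiscreteValuationRing 𝒪]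
    [IsAdicComplete (maximalIdeal 𝒪) 𝒪] [Finite (ResidueField 𝒪)] [CharZero 𝒪]
    {p : ℕ}, p.Prime → (p : 𝒪) ∈ maximalIdeal 𝒪 →
    ∀ {N : ℕ} [NeZero N] {S : Finset ℕ}, p ∈ S → (∀ q : ℕ, q.Prime → q ∣ N → q ∈ S) →
    ∀ {θ : CuspForm.heckeAlgebra N 2 (↑S : Set ℕ) →+* ResidueField 𝒪}
    {T : Type} [CommRing T] [IsLocalRing T] [IsNoetherianRing T]
    [IsAdicComplete (maximalIdeal T) T] [Algebra 𝒪 T] [IsLocalHom (algebraMap 𝒪 T)]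
    [Module.Finite 𝒪 T] [Module.Free 𝒪 T]
    (H : CuspForm.HeckeGaloisRepDatum N (↑S : Set ℕ) 𝒪 θ T)
    (q : ℕ), q.Prime → q ≠ p → q ∣ N → ¬ q ^ 2 ∣ N →
    H.ρ.IsUnipotentOnInertiaAt q

/-! ## Generalities -/

section Gen

variable {A B : Type} [CommRing A] [IsLocalRing A] [CommRing B] [IsLocalRing B]

/-- The trace of a base change. -/
theorem trace_baseChangeAlong494 (f : A →+* B) (hf : IsLocalHom f) (ρ : GaloisRepAdic A)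
    (σ : AlgebraicClosure ℚ ≃ₐ[ℚ] AlgebraicClosure ℚ) :
    (ρ.baseChangeAlong f hf).trace σ = f (ρ.trace σ) := by
  letI : Algebra A B := f.toAlgebra
  exact LinearMap.trace_baseChange (ρ.ρ σ) B

/-- Unipotency on inertia passes to base changes. -/
theorem isUnipotent_baseChangeAlong494 (f : A →+* B) (hf : IsLocalHom f) {ρ : GaloisRepAdic A}
    {q : ℕ} (hu : ρ.IsUnipotentOnInertiaAt q) :
    (ρ.baseChangeAlong f hf).IsUnipotentOnInertiaAt q := by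
  intro P hP σ hσ
  rw [Fermat.Agent.S59.Arch.charpoly_baseChangeAlong, hu P hP σ hσ]
  simp only [Polynomial.map_pow, Polynomial.map_sub, Polynomial.map_X, Polynomial.map_one]

/-- Inertia values are compatible with base change. -/
theorem isInertiaValue_map494 (f : A →+* B) (hf : IsLocalHom f) {ρ : GaloisRepAdic A}
    {φ σ : AlgebraicClosure ℚ ≃ₐ[ℚ] AlgebraicClosure ℚ} {a₀ w : A}
    (hw : IsInertiaValue ρ φ σ a₀ w) :
    IsInertiaValue (ρ.baseChangeAlong f hf) φ σ (f a₀) (f w) := by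
  obtain ⟨a, b, ha, hunit, hcp, hrel⟩ := hw
  refine ⟨f a, f b, ?_, ?_, ?_, ?_⟩
  · rw [← map_sub]
    exact (IsLocalRing.mem_maximalIdeal _).mpr fun hu =>
      (IsLocalRing.mem_maximalIdeal _).mp ha (hf.map_nonunit _ hu)
  · rw [← map_sub]
    exact hunit.map f
  · rw [Fermat.Agent.S59.Arch.charpoly_baseChangeAlong, hcp]
    simp only [Polynomial.map_mul, Polynomial.map_sub, Polynomial.map_X, Polynomial.map_C]
  · rw [trace_baseChangeAlong494, trace_baseChangeAlong494, ← map_sub, ← map_mul, ← map_mul,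
      ← map_sub, hrel]

/-- A surjective ring homomorphism from a local ring to a nontrivial ring is local. -/
theorem isLocalHom_of_surjective494 [Nontrivial B] (f : A →+* B)
    (hf : Function.Surjective f) : IsLocalHom f := by
  refine ⟨fun a ha => ?_⟩
  by_contra hna
  obtain ⟨u, hu⟩ := ha
  obtain ⟨c, hc⟩ := hf (↑u⁻¹ : B)
  have h1 : f (a * c) = 1 := by rw [map_mul, hc, ← hu, Units.mul_inv]
  have h2 : a * c ∈ maximalIdeal A :=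
    Ideal.mul_mem_right _ _ ((IsLocalRing.mem_maximalIdeal _).mpr hna)
  have h3 : IsUnit (1 - a * c) := by
    by_contra h
    have h4 : 1 - a * c ∈ maximalIdeal A := (IsLocalRing.mem_maximalIdeal _).mpr h
    have h5 : (1 : A) ∈ maximalIdeal A := by
      have := (maximalIdeal A).add_mem h4 h2
      rwa [sub_add_cancel] at this
    exact (IsLocalRing.mem_maximalIdeal _).mp h5 isUnit_one
  have h6 : f (1 - a * c) = 0 := by rw [map_sub, map_one, h1, sub_self]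
  have h7 := h3.map f
  rw [h6] at h7
  exact not_isUnit_zero h7

end Gen

/-! ## The transfer -/

section Transfer

variable {N₁ : ℕ} [NeZero N₁] {S₁ : Finset ℕ}
  {𝒪₁ : Type} [CommRing 𝒪₁] [IsDomain 𝒪₁] [IsDiscreteValuationRing 𝒪₁]
  [IsAdicComplete (maximalIdeal 𝒪₁) 𝒪₁]
  {θ₁ : CuspForm.heckeAlgebra N₁ 2 (↑S₁ : Set ℕ) →+* ResidueField 𝒪₁}
  {T₁ : Type} [CommRing T₁] [IsLocalRing T₁] [IsNoetherianRing T₁]
  [IsAdicComplete (maximalIdeal T₁) T₁] [Algebra 𝒪₁ T₁] [IsLocalHom (algebraMap 𝒪₁ T₁)]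
  [Module.Finite 𝒪₁ T₁] [Module.Free 𝒪₁ T₁]
  {N₂ : ℕ} [NeZero N₂] {S₂ : Finset ℕ}
  {𝒪₂ : Type} [CommRing 𝒪₂] [IsDomain 𝒪₂] [IsDiscreteValuationRing 𝒪₂]
  [IsAdicComplete (maximalIdeal 𝒪₂) 𝒪₂]
  {θ₂ : CuspForm.heckeAlgebra N₂ 2 (↑S₂ : Set ℕ) →+* ResidueField 𝒪₂}
  {T₂ : Type} [CommRing T₂] [IsLocalRing T₂] [IsNoetherianRing T₂]
  [IsAdicComplete (maximalIdeal T₂) T₂] [Algebra 𝒪₂ T₂] [IsLocalHom (algebraMap 𝒪₂ T₂)]
  [Module.Finite 𝒪₂ T₂] [Module.Free 𝒪₂ T₂]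
  {𝒪' : Type} [CommRing 𝒪'] [IsDomain 𝒪'] [IsDiscreteValuationRing 𝒪']
  [IsAdicComplete (maximalIdeal 𝒪') 𝒪'] [Finite (ResidueField 𝒪')]

/-- **Transfer of the characteristic polynomials** between two points with the same
eigenvalues outside a finite set `B` of primes. -/
theorem charpoly_eq_of_compat494
    (H₁ : CuspForm.HeckeGaloisRepDatum N₁ (↑S₁ : Set ℕ) 𝒪₁ θ₁ T₁)
    (H₂ : CuspForm.HeckeGaloisRepDatum N₂ (↑S₂ : Set ℕ) 𝒪₂ θ₂ T₂)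
    (x₁ : T₁ →+* 𝒪') (hx₁ : IsLocalHom x₁) (x₂ : T₂ →+* 𝒪') (hx₂ : IsLocalHom x₂)
    (B : Finset ℕ)
    (hcompat : ∀ (ℓ : ℕ) (hℓ : ℓ.Prime) (h₁N : ¬ ℓ ∣ N₁) (h₁S : ℓ ∉ (↑S₁ : Set ℕ))
      (h₂N : ¬ ℓ ∣ N₂) (h₂S : ℓ ∉ (↑S₂ : Set ℕ)), ℓ ∉ B →
      x₁ (H₁.π (heckeAlgebra.T hℓ h₁N h₁S)) = x₂ (H₂.π (heckeAlgebra.T hℓ h₂N h₂S)))
    (σ : AlgebraicClosure ℚ ≃ₐ[ℚ] AlgebraicClosure ℚ) :
    LinearMap.charpoly ((H₁.ρ.baseChangeAlong x₁ hx₁).ρ σ) =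
      LinearMap.charpoly ((H₂.ρ.baseChangeAlong x₂ hx₂).ρ σ) := by
  classical
  refine Fermat.Agent.S58.H93.chebCharpoly 𝒪' _ _
    (B ∪ S₁ ∪ S₂ ∪ N₁.primeFactors ∪ N₂.primeFactors) ?_ σ
  intro ℓ hℓ hℓT A hA τ hτ
  simp only [Finset.mem_union, not_or] at hℓT
  obtain ⟨⟨⟨⟨hB, h1⟩, h2⟩, h3⟩, h4⟩ := hℓT
  have h₁N : ¬ ℓ ∣ N₁ := fun h => h3 (Nat.mem_primeFactors.mpr ⟨hℓ, h, NeZero.ne N₁⟩)
  have h₂N : ¬ ℓ ∣ N₂ := fun h => h4 (Nat.mem_primeFactors.mpr ⟨hℓ, h, NeZero.ne N₂⟩)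
  have h₁S : ℓ ∉ (↑S₁ : Set ℕ) := fun h => h1 (Finset.mem_coe.mp h)
  have h₂S : ℓ ∉ (↑S₂ : Set ℕ) := fun h => h2 (Finset.mem_coe.mp h)
  rw [Fermat.Agent.S59.Arch.charpoly_baseChangeAlong,
    Fermat.Agent.S59.Arch.charpoly_baseChangeAlong,
    H₁.charpoly_frob ℓ hℓ h₁N h₁S A hA τ hτ, H₂.charpoly_frob ℓ hℓ h₂N h₂S A hA τ hτ]
  simp only [Polynomial.map_add, Polynomial.map_sub, Polynomial.map_mul, Polynomial.map_pow,
    Polynomial.map_X, Polynomial.map_C, map_natCast, Polynomial.map_natCast]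
  rw [hcompat ℓ hℓ h₁N h₁S h₂N h₂S hB]

/-- **Transfer of unipotency.** -/
theorem isUnipotent_of_compat494
    (H₁ : CuspForm.HeckeGaloisRepDatum N₁ (↑S₁ : Set ℕ) 𝒪₁ θ₁ T₁)
    (H₂ : CuspForm.HeckeGaloisRepDatum N₂ (↑S₂ : Set ℕ) 𝒪₂ θ₂ T₂)
    (x₁ : T₁ →+* 𝒪') (hx₁ : IsLocalHom x₁) (x₂ : T₂ →+* 𝒪') (hx₂ : IsLocalHom x₂)
    (B : Finset ℕ)
    (hcompat : ∀ (ℓ : ℕ) (hℓ : ℓ.Prime) (h₁N : ¬ ℓ ∣ N₁) (h₁S : ℓ ∉ (↑S₁ : Set ℕ))
      (h₂N : ¬ ℓ ∣ N₂) (h₂S : ℓ ∉ (↑S₂ : Set ℕ)), ℓ ∉ B →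
      x₁ (H₁.π (heckeAlgebra.T hℓ h₁N h₁S)) = x₂ (H₂.π (heckeAlgebra.T hℓ h₂N h₂S)))
    {q : ℕ} (hu : H₂.ρ.IsUnipotentOnInertiaAt q) :
    (H₁.ρ.baseChangeAlong x₁ hx₁).IsUnipotentOnInertiaAt q := by
  intro P hP σ hσ
  rw [charpoly_eq_of_compat494 H₁ H₂ x₁ hx₁ x₂ hx₂ B hcompat σ]
  exact isUnipotent_baseChangeAlong494 x₂ hx₂ hu P hP σ hσ

end Transfer

/-! ## T-GAL -/

section TGal

variable {N₀ : ℕ} [NeZero N₀] {S₀ : Finset ℕ}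
  {𝒪 : Type} [CommRing 𝒪] [IsDomain 𝒪] [IsDiscreteValuationRing 𝒪]
  [IsAdicComplete (maximalIdeal 𝒪) 𝒪]
  {θ : CuspForm.heckeAlgebra N₀ 2 (↑S₀ : Set ℕ) →+* ResidueField 𝒪}
  {T : Type} [CommRing T] [IsLocalRing T] [IsNoetherianRing T]
  [IsAdicComplete (maximalIdeal T) T] [Algebra 𝒪 T] [IsLocalHom (algebraMap 𝒪 T)]
  [Module.Finite 𝒪 T] [Module.Free 𝒪 T]
  {𝒪' : Type} [CommRing 𝒪'] [IsDomain 𝒪'] [IsDiscreteValuationRing 𝒪']
  [IsAdicComplete (maximalIdeal 𝒪') 𝒪'] [Finite (ResidueField 𝒪')] [CharZero 𝒪']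

/-- The residual character of an `𝒪'`-valued character of a Hecke algebra which is the
eigensystem of a point of a Hecke–Galois datum is non-Eisenstein. -/
theorem nonEisenstein_of_compat494
    (H : CuspForm.HeckeGaloisRepDatum N₀ (↑S₀ : Set ℕ) 𝒪 θ T)
    (x : T →+* 𝒪') (hx : IsLocalHom x)
    {N' : ℕ} [NeZero N'] {S' : Finset ℕ}
    (hS₀ : S₀ ⊆ S') (hN₀ : ∀ q : ℕ, q.Prime → q ∣ N₀ → q ∈ S')
    (χ' : CuspForm.heckeAlgebra N' 2 (↑S' : Set ℕ) →+* 𝒪')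
    (hcompat : ∀ (ℓ : ℕ) (hℓ : ℓ.Prime) (hℓN₀ : ¬ ℓ ∣ N₀) (hℓS₀ : ℓ ∉ (↑S₀ : Set ℕ))
      (hℓN' : ¬ ℓ ∣ N') (hℓS' : ℓ ∉ (↑S' : Set ℕ)),
      x (H.π (heckeAlgebra.T hℓ hℓN₀ hℓS₀)) = χ' (heckeAlgebra.T hℓ hℓN' hℓS')) :
    Fermat.Agent.S59.G4.NonEisenstein ((residue 𝒪').comp χ') := by
  haveI := hx
  refine ⟨(H.ρ.baseChangeAlong x hx).residual, ?_, ?_⟩
  · refine Fermat.Agent.S58.H273.residual_absIrr_of_frob H.ρ.residual H.residual_absIrr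
      (ResidueField.map x) (H.ρ.baseChangeAlong x hx) ∅ ?_
    intro ℓ _ _ A _ σ _
    rw [Fermat.Agent.S59.Arch.charpoly_baseChangeAlong]
    have e1 : LinearMap.charpoly (H.ρ.residual.ρ σ)
        = (LinearMap.charpoly (H.ρ.ρ σ)).map (residue T) := by
      have : LinearMap.charpoly (H.ρ.residual.ρ σ)
          = LinearMap.charpoly ((H.ρ.ρ σ).baseChange (ResidueField T)) := rfl
      rw [this, LinearMap.charpoly_baseChange, IsLocalRing.ResidueField.algebraMap_eq]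
    rw [e1, Polynomial.map_map, Polynomial.map_map]
    congr 1
  · intro ℓ hℓ hℓN' hℓS' A hA σ hσ
    have hℓS₀ : ℓ ∉ (↑S₀ : Set ℕ) := fun h =>
      hℓS' (Finset.mem_coe.mpr (hS₀ (Finset.mem_coe.mp h)))
    have hℓN₀ : ¬ ℓ ∣ N₀ := fun h => hℓS' (Finset.mem_coe.mpr (hN₀ ℓ hℓ h))
    have e1 : LinearMap.charpoly ((H.ρ.baseChangeAlong x hx).residual.ρ σ)
        = (LinearMap.charpoly ((H.ρ.baseChangeAlong x hx).ρ σ)).map (residue 𝒪') := by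
      have : LinearMap.charpoly ((H.ρ.baseChangeAlong x hx).residual.ρ σ)
          = LinearMap.charpoly (((H.ρ.baseChangeAlong x hx).ρ σ).baseChange
              (ResidueField 𝒪')) := rfl
      rw [this, LinearMap.charpoly_baseChange, IsLocalRing.ResidueField.algebraMap_eq]
    rw [e1, Fermat.Agent.S59.Arch.charpoly_baseChangeAlong,
      H.charpoly_frob ℓ hℓ hℓN₀ hℓS₀ A hA σ hσ]
    simp only [Polynomial.map_add, Polynomial.map_sub, Polynomial.map_mul, Polynomial.map_pow,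
      Polynomial.map_X, Polynomial.map_C, map_natCast, Polynomial.map_natCast,
      RingHom.comp_apply]
    rw [hcompat ℓ hℓ hℓN₀ hℓS₀ hℓN' hℓS']

/-- **T-GAL.**  If the eigensystem of the point `x` of the Hecke–Galois datum `H` is a character
`χ'` of the Hecke algebra of a level `N'` with `q ∥ N'`, `q ≠ p`, then `H.ρ ⊗_x 𝒪'` is unipotent
on inertia at `q`. -/
theorem isUnipotent_of_char494 (hG4 : Fermat.Agent.S59.G4.G4Statement) (h34 : S34Shape494)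
    (p : ℕ) [Fact p.Prime] (hp2 : p ≠ 2) (hp𝒪' : (p : 𝒪') ∈ maximalIdeal 𝒪')
    (H : CuspForm.HeckeGaloisRepDatum N₀ (↑S₀ : Set ℕ) 𝒪 θ T)
    (x : T →+* 𝒪') (hx : IsLocalHom x)
    {N' : ℕ} [NeZero N'] [Fact (CuspForm.HasIntegralStructure N' 2)] {S' : Finset ℕ}
    (hpS' : p ∈ S') (hN'S' : ∀ q : ℕ, q.Prime → q ∣ N' → q ∈ S')
    (hS₀ : S₀ ⊆ S') (hN₀ : ∀ q : ℕ, q.Prime → q ∣ N₀ → q ∈ S')
    (χ' : CuspForm.heckeAlgebra N' 2 (↑S' : Set ℕ) →+* 𝒪')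
    (hcompat : ∀ (ℓ : ℕ) (hℓ : ℓ.Prime) (hℓN₀ : ¬ ℓ ∣ N₀) (hℓS₀ : ℓ ∉ (↑S₀ : Set ℕ))
      (hℓN' : ¬ ℓ ∣ N') (hℓS' : ℓ ∉ (↑S' : Set ℕ)),
      x (H.π (heckeAlgebra.T hℓ hℓN₀ hℓS₀)) = χ' (heckeAlgebra.T hℓ hℓN' hℓS'))
    (q : ℕ) (hq : q.Prime) (hqp : q ≠ p) (hqN : q ∣ N') (hq2 : ¬ q ^ 2 ∣ N') :
    (H.ρ.baseChangeAlong x hx).IsUnipotentOnInertiaAt q := by
  have hNE := nonEisenstein_of_compat494 H x hx hS₀ hN₀ χ' hcompat
  obtain ⟨H', -⟩ := hG4 p hp2 N' S' hpS' hN'S' 𝒪' hp𝒪' ((residue 𝒪').comp χ') hNE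
  obtain ⟨ψ, hψ⟩ := H'.exists_point χ' (fun _ => rfl)
  have hψs : Function.Surjective (ψ : CuspForm.heckeLocal N' (↑S' : Set ℕ) 𝒪'
      ((residue 𝒪').comp χ') →+* 𝒪') := fun a => ⟨algebraMap 𝒪' _ a, by simp⟩
  have hψl : IsLocalHom (ψ : CuspForm.heckeLocal N' (↑S' : Set ℕ) 𝒪'
      ((residue 𝒪').comp χ') →+* 𝒪') := isLocalHom_of_surjective494 _ hψs
  have hu := h34 (Fact.out : p.Prime) hp𝒪' hpS' hN'S' H' q hq hqp hqN hq2
  refine isUnipotent_of_compat494 H H' x hx (ψ : _ →+* 𝒪') hψl ∅ ?_ hu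
  intro ℓ hℓ h₁N h₁S h₂N h₂S _
  rw [hcompat ℓ hℓ h₁N h₁S h₂N h₂S]
  exact (hψ _).symm

/-- **(T), pointwise.**  In the situation of `isUnipotent_of_char494`, every inertia value `w` of
`H.ρ` at `(φ, σ)` — `φ` a Frobenius at a place `P` over `q`, `σ` in the inertia group of `P` —
is mapped to `1` by the point `x`. -/
theorem inertiaValue_eq_one_of_char494 (hG4 : Fermat.Agent.S59.G4.G4Statement)
    (h34 : S34Shape494)
    (p : ℕ) [Fact p.Prime] (hp2 : p ≠ 2) (hp𝒪' : (p : 𝒪') ∈ maximalIdeal 𝒪')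
    (H : CuspForm.HeckeGaloisRepDatum N₀ (↑S₀ : Set ℕ) 𝒪 θ T)
    (x : T →+* 𝒪') (hx : IsLocalHom x)
    {N' : ℕ} [NeZero N'] [Fact (CuspForm.HasIntegralStructure N' 2)] {S' : Finset ℕ}
    (hpS' : p ∈ S') (hN'S' : ∀ q : ℕ, q.Prime → q ∣ N' → q ∈ S')
    (hS₀ : S₀ ⊆ S') (hN₀ : ∀ q : ℕ, q.Prime → q ∣ N₀ → q ∈ S')
    (χ' : CuspForm.heckeAlgebra N' 2 (↑S' : Set ℕ) →+* 𝒪')
    (hcompat : ∀ (ℓ : ℕ) (hℓ : ℓ.Prime) (hℓN₀ : ¬ ℓ ∣ N₀) (hℓS₀ : ℓ ∉ (↑S₀ : Set ℕ))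
      (hℓN' : ¬ ℓ ∣ N') (hℓS' : ℓ ∉ (↑S' : Set ℕ)),
      x (H.π (heckeAlgebra.T hℓ hℓN₀ hℓS₀)) = χ' (heckeAlgebra.T hℓ hℓN' hℓS'))
    (q : ℕ) (hq : q.Prime) (hqp : q ≠ p) (hqN : q ∣ N') (hq2 : ¬ q ^ 2 ∣ N')
    (P : ValuationSubring (AlgebraicClosure ℚ)) (hP : P.LiesOverPrime q)
    (φ σ : AlgebraicClosure ℚ ≃ₐ[ℚ] AlgebraicClosure ℚ) (hφ : P.IsFrobeniusAt φ q)
    (hσ : σ ∈ P.inertiaSubgroupIn ℚ) (a₀ w : T) (hw : IsInertiaValue H.ρ φ σ a₀ w) :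
    x w = 1 :=
  isInertiaValue_eq_one_of_isUnipotent_frob494
    (isUnipotent_of_char494 hG4 h34 p hp2 hp𝒪' H x hx hpS' hN'S' hS₀ hN₀ χ' hcompat q hq hqp
      hqN hq2) hP hφ hσ (isInertiaValue_map494 x hx hw)

end TGal

end Fermat.Agent.S59.TW.H494
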