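import Mathlib
import Fermat.Agent.S59.TW.H959.Iface

/-!
# Row S59 / HARD, cell TW, leaf CMP, part (T) — Galois core, step 1 (helper494)

**Unipotent inertia forces the inertia values to be `1`.**

`ρ : GaloisRepAdic A` over a domain, unipotent on inertia at `q`
(`GaloisRepAdic.IsUnipotentOnInertiaAt`: every element of an inertia group at `q` has
characteristic polynomial `(X - 1)²`), `P` a place over `q`, `φ` in the decomposition group of `P`
(e.g. a Frobenius), `σ` in the inertia group of `P`.  Then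

* `trace_mul_eq_of_isUnipotent` : `tr ρ(φ σ) = tr ρ(φ)`;
* `IsInertiaValue.eq_one_of_isUnipotent` : every inertia value `w` of `ρ` at `(φ, σ)`
  (`TW.H959.IsInertiaValue`) is `1`.

No hypothesis on the residual representation, no tame relation: with `N = ρ(σ) - 1` and
`Φ = ρ(φ)` the `2 × 2` identity `tr(Φ N)² = - tr(N Φ N adj Φ)` (valid when `tr N = det N = 0`)
and the unipotency of `σ` and of `σ · φ σ φ⁻¹` (inertia is normal in the decomposition group)
give `tr(Φ N)² = 0`.

Mathlib + `TW/H959/Iface` (definition of `IsInertiaValue`) only.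
-/

set_option autoImplicit false

open Matrix Polynomial IsLocalRing

namespace Fermat.Agent.S59.TW.H494

/-! ## The `2 × 2` identity -/

section Mat

variable {R : Type*} [CommRing R]

/-- For `2 × 2` matrices with `tr N = det N = 0`: `tr(Φ N)² = - tr(N Φ N adj Φ)`. -/
theorem trace_mul_sq_eq494 (Φ N : Matrix (Fin 2) (Fin 2) R) (htr : N.trace = 0)
    (hdet : N.det = 0) :
    (Φ * N).trace ^ 2 = - (N * Φ * N * Φ.adjugate).trace := by
  have h11 : N 1 1 = - N 0 0 := by
    rw [Matrix.trace_fin_two] at htr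
    exact eq_neg_of_add_eq_zero_right htr
  rw [Matrix.det_fin_two, h11] at hdet
  simp only [Matrix.trace_fin_two, Matrix.mul_apply, Fin.sum_univ_two, Matrix.adjugate_fin_two,
    Matrix.of_apply, Matrix.cons_val', Matrix.cons_val_zero, Matrix.cons_val_one,
    Matrix.cons_val_fin_one, h11]
  linear_combination (-(Φ 0 0 ^ 2 + Φ 1 1 ^ 2 + 2 * Φ 0 1 * Φ 1 0)) * hdet

/-- `det (S - 1) = det S - tr S + 1` for `2 × 2` matrices. -/
theorem det_sub_one494 (S : Matrix (Fin 2) (Fin 2) R) :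
    (S - 1).det = S.det - S.trace + 1 := by
  simp only [Matrix.det_fin_two, Matrix.trace_fin_two, Matrix.sub_apply, Matrix.one_apply_eq,
    Matrix.one_apply_ne, ne_eq, zero_ne_one, one_ne_zero, not_false_eq_true, sub_zero,
    Fin.isValue]
  ring

/-- Trace and determinant of a `2 × 2` matrix with characteristic polynomial `(X - 1)²`. -/
theorem trace_det_of_charpoly494 [Nontrivial R] (S : Matrix (Fin 2) (Fin 2) R)
    (h : S.charpoly = (X - 1) ^ 2) : S.trace = 2 ∧ S.det = 1 := by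
  rw [Matrix.charpoly_fin_two] at h
  have h1 := congrArg (fun P : R[X] => P.coeff 1) h
  have h0 := congrArg (fun P : R[X] => P.coeff 0) h
  have e : ((X : R[X]) - 1) ^ 2 = X ^ 2 - C (2 : R) * X + C (1 : R) := by
    simp only [map_ofNat, map_one]
    ring
  simp only [e] at h1 h0
  simp only [coeff_add, coeff_sub, coeff_X_pow, coeff_C_mul, coeff_X_one, coeff_C,
    coeff_X_zero] at h1 h0
  norm_num at h1 h0
  exact ⟨h1, h0⟩

/-- **The matrix core.**  `Φ Ψ = 1`, `S` and `S · Φ S Ψ` have characteristic polynomial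
`(X - 1)²`; then `tr(Φ S) = tr Φ` (over a domain). -/
theorem trace_mul_eq_of_unip_mat494 [IsDomain R] (Φ Ψ S : Matrix (Fin 2) (Fin 2) R)
    (hΦΨ : Φ * Ψ = 1) (hS : S.charpoly = (X - 1) ^ 2)
    (hSS : (S * (Φ * S * Ψ)).charpoly = (X - 1) ^ 2) :
    (Φ * S).trace = Φ.trace := by
  obtain ⟨htrS, hdetS⟩ := trace_det_of_charpoly494 S hS
  obtain ⟨htrSS, -⟩ := trace_det_of_charpoly494 _ hSS
  have hΨΦ : Ψ * Φ = 1 := mul_eq_one_comm.mp hΦΨ
  set N : Matrix (Fin 2) (Fin 2) R := S - 1 with hN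
  have hSN : S = 1 + N := by rw [hN]; abel
  have htrN : N.trace = 0 := by
    rw [hN, Matrix.trace_sub, htrS, Matrix.trace_one, Fintype.card_fin]
    norm_num
  have hdetN : N.det = 0 := by
    rw [hN, det_sub_one494, hdetS, htrS]
    norm_num
  -- `tr (N Φ N Ψ) = 0`
  have h1 : (N * Φ * N * Ψ).trace = 0 := by
    have e : S * (Φ * S * Ψ) = 1 + Φ * N * Ψ + N + N * Φ * N * Ψ := by
      rw [hSN]
      simp only [Matrix.mul_add, Matrix.add_mul, Matrix.mul_one, Matrix.one_mul, hΦΨ,
        Matrix.mul_assoc]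
      abel
    rw [e, Matrix.trace_add, Matrix.trace_add, Matrix.trace_add, Matrix.trace_one,
      Fintype.card_fin, htrN] at htrSS
    have e2 : (Φ * N * Ψ).trace = 0 := by
      rw [Matrix.trace_mul_cycle, hΨΦ, Matrix.one_mul, htrN]
    rw [e2] at htrSS
    have : ((2 : ℕ) : R) + 0 + 0 + (N * Φ * N * Ψ).trace = 2 := htrSS
    have h2 : ((2 : ℕ) : R) = 2 := by norm_num
    rw [h2] at this
    linear_combination this
  -- `adj Φ = det Φ • Ψ`
  have hadj : Φ.adjugate = Φ.det • Ψ := by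
    calc Φ.adjugate = Φ.adjugate * (Φ * Ψ) := by rw [hΦΨ, Matrix.mul_one]
      _ = (Φ.adjugate * Φ) * Ψ := by rw [Matrix.mul_assoc]
      _ = Φ.det • Ψ := by rw [Matrix.adjugate_mul, Matrix.smul_mul, Matrix.one_mul]
  have h2 : (Φ * N).trace ^ 2 = 0 := by
    rw [trace_mul_sq_eq494 Φ N htrN hdetN, hadj, Matrix.mul_smul, Matrix.trace_smul, h1,
      smul_zero, neg_zero]
  have h3 : (Φ * N).trace = 0 := pow_eq_zero_iff (two_ne_zero) |>.mp h2
  rw [hSN, Matrix.mul_add, Matrix.mul_one, Matrix.trace_add, h3, add_zero]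

end Mat

/-! ## Endomorphisms of a free module of rank two -/

section End

variable {A : Type*} [CommRing A] [IsDomain A] {V : Type*} [AddCommGroup V] [Module A V]
  [Module.Free A V] [Module.Finite A V]

/-- **The endomorphism core.** -/
theorem trace_mul_eq_of_unip_end494 (hV : Module.finrank A V = 2) (Φ Ψ S : Module.End A V)
    (hΦΨ : Φ * Ψ = 1) (hS : LinearMap.charpoly S = (X - 1) ^ 2)
    (hSS : LinearMap.charpoly (S * (Φ * S * Ψ)) = (X - 1) ^ 2) :
    LinearMap.trace A V (Φ * S) = LinearMap.trace A V Φ := by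
  classical
  set b := Module.finBasisOfFinrankEq A V hV with hb
  have hmul : ∀ f g : Module.End A V,
      LinearMap.toMatrix b b (f * g) = LinearMap.toMatrix b b f * LinearMap.toMatrix b b g :=
    fun f g => LinearMap.toMatrix_mul b f g
  rw [LinearMap.trace_eq_matrix_trace A b, LinearMap.trace_eq_matrix_trace A b, hmul]
  refine trace_mul_eq_of_unip_mat494 _ (LinearMap.toMatrix b b Ψ) _ ?_ ?_ ?_
  · rw [← hmul, hΦΨ]
    exact LinearMap.toMatrix_one b
  · rw [LinearMap.charpoly_toMatrix, hS]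
  · rw [← hmul, ← hmul, ← hmul, LinearMap.charpoly_toMatrix, hSS]

end End

/-! ## Galois representations -/

section Gal

variable {A : Type} [CommRing A] [IsLocalRing A]

/-- Inertia is normal in the decomposition group. -/
theorem conj_mem_inertiaSubgroupIn494 (P : ValuationSubring (AlgebraicClosure ℚ))
    {φ σ : AlgebraicClosure ℚ ≃ₐ[ℚ] AlgebraicClosure ℚ}
    (hφ : φ ∈ P.decompositionSubgroup ℚ) (hσ : σ ∈ P.inertiaSubgroupIn ℚ) :
    φ * σ * φ⁻¹ ∈ P.inertiaSubgroupIn ℚ := by
  obtain ⟨s, hs, hsσ⟩ := hσ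
  have hn : (P.inertiaSubgroup ℚ).Normal := MonoidHom.normal_ker _
  set d : P.decompositionSubgroup ℚ := ⟨φ, hφ⟩ with hd
  refine ⟨d * s * d⁻¹, hn.conj_mem s hs d, ?_⟩
  rw [map_mul, map_mul, map_inv, hsσ]
  rfl

/-- `tr ρ(φ σ) = tr ρ(φ)` for `φ` in the decomposition group and `σ` in the inertia group of a
place over `q`, if `ρ` is unipotent on inertia at `q`. -/
theorem trace_mul_eq_of_isUnipotent494 [IsDomain A] {ρ : GaloisRepAdic A} {q : ℕ}
    (hu : ρ.IsUnipotentOnInertiaAt q)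
    {P : ValuationSubring (AlgebraicClosure ℚ)} (hP : P.LiesOverPrime q)
    {φ σ : AlgebraicClosure ℚ ≃ₐ[ℚ] AlgebraicClosure ℚ}
    (hφ : φ ∈ P.decompositionSubgroup ℚ) (hσ : σ ∈ P.inertiaSubgroupIn ℚ) :
    ρ.trace (φ * σ) = ρ.trace φ := by
  unfold GaloisRepAdic.trace
  rw [map_mul]
  refine trace_mul_eq_of_unip_end494 ρ.finrank_eq (ρ.ρ φ) (ρ.ρ φ⁻¹) (ρ.ρ σ) ?_
    (hu P hP σ hσ) ?_
  · rw [← map_mul, mul_inv_cancel, map_one]
  · have h1 : σ * (φ * σ * φ⁻¹) ∈ P.inertiaSubgroupIn ℚ :=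
      (P.inertiaSubgroupIn ℚ).mul_mem hσ (conj_mem_inertiaSubgroupIn494 P hφ hσ)
    have h2 := hu P hP _ h1
    rwa [map_mul, map_mul, map_mul] at h2

/-- The trace of an endomorphism of a free module of rank two with characteristic polynomial
`(X - a)(X - b)` is `a + b`. -/
theorem trace_of_charpoly_eq494 {V : Type*} [AddCommGroup V] [Module A V]
    [Module.Free A V] [Module.Finite A V] (hV : Module.finrank A V = 2) (f : Module.End A V)
    {a b : A} (h : LinearMap.charpoly f = (X - C a) * (X - C b)) :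
    LinearMap.trace A V f = a + b := by
  classical
  set bs := Module.finBasisOfFinrankEq A V hV
  rw [LinearMap.trace_eq_matrix_trace A bs]
  rw [← LinearMap.charpoly_toMatrix f bs, Matrix.charpoly_fin_two] at h
  have h1 := congrArg (fun P : A[X] => P.coeff 1) h
  have e : (X - C a) * (X - C b) = X ^ 2 - C (a + b) * X + C (a * b) := by
    simp only [map_add, map_mul]
    ring
  simp only [e] at h1
  simp only [coeff_add, coeff_sub, coeff_X_pow, coeff_C_mul, coeff_X_one, coeff_C] at h1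
  norm_num at h1
  linear_combination -h1

/-- **Unipotent inertia ⟹ inertia value `1`.**  If `ρ` (over a local domain) is unipotent on
inertia at `q`, `P` is a place over `q`, `φ` is in the decomposition group of `P` and `σ` in its
inertia group, then every inertia value of `ρ` at `(φ, σ)` is `1`. -/
theorem isInertiaValue_eq_one_of_isUnipotent494 [IsDomain A] {ρ : GaloisRepAdic A} {q : ℕ}
    (hu : ρ.IsUnipotentOnInertiaAt q)
    {P : ValuationSubring (AlgebraicClosure ℚ)} (hP : P.LiesOverPrime q)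
    {φ σ : AlgebraicClosure ℚ ≃ₐ[ℚ] AlgebraicClosure ℚ}
    (hφ : φ ∈ P.decompositionSubgroup ℚ) (hσ : σ ∈ P.inertiaSubgroupIn ℚ)
    {a₀ w : A} (hw : Fermat.Agent.S59.TW.H959.IsInertiaValue ρ φ σ a₀ w) : w = 1 := by
  obtain ⟨a, b, -, hunit, hcp, hrel⟩ := hw
  have h1 : ρ.trace (φ * σ) = a + b := by
    rw [trace_mul_eq_of_isUnipotent494 hu hP hφ hσ]
    exact trace_of_charpoly_eq494 ρ.finrank_eq _ hcp
  have h2 : ρ.trace σ = 2 := by
    have h := hu P hP σ hσ
    have e : ((X : A[X]) - 1) ^ 2 = (X - C 1) * (X - C 1) := by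
      rw [map_one]; ring
    rw [e] at h
    have := trace_of_charpoly_eq494 ρ.finrank_eq _ h
    rw [show ρ.trace σ = LinearMap.trace A ρ.V (ρ.ρ σ) from rfl, this]
    norm_num
  rw [h1, h2] at hrel
  have h3 : (a - b) * w = (a - b) * 1 := by linear_combination hrel
  exact hunit.mul_left_cancel h3

/-- The same for a Frobenius `φ` at `P`. -/
theorem isInertiaValue_eq_one_of_isUnipotent_frob494 [IsDomain A] {ρ : GaloisRepAdic A} {q : ℕ}
    (hu : ρ.IsUnipotentOnInertiaAt q)
    {P : ValuationSubring (AlgebraicClosure ℚ)} (hP : P.LiesOverPrime q)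
    {φ σ : AlgebraicClosure ℚ ≃ₐ[ℚ] AlgebraicClosure ℚ}
    (hφ : P.IsFrobeniusAt φ q) (hσ : σ ∈ P.inertiaSubgroupIn ℚ)
    {a₀ w : A} (hw : Fermat.Agent.S59.TW.H959.IsInertiaValue ρ φ σ a₀ w) : w = 1 :=
  isInertiaValue_eq_one_of_isUnipotent494 hu hP hφ.mem_decompositionSubgroup hσ hw

end Gal

end Fermat.Agent.S59.TW.H494
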